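import Mathlib
import Fermat.Agent.S42x.Top.H23_Det

/-!
# W8 (S30), leaf (B) [EIGV] (helper21): eigenvectors of integer matrices for a character

Let `R` be a commutative ring, `τ : R →+* Matrix (Fin d) (Fin d) ℤ` a ring homomorphism (a
commuting family of integer matrices) and `χ : R →+* E` a ring homomorphism into a field which
vanishes on `ker τ`. Then `χ` *occurs* in `E ^ d`: there is `w ≠ 0` with
`∑ j, τ(r)_{ij} w_j = χ(r) w_i` for all `r`, `i`.

The proof is determinantal (no artinian algebra, no minimal polynomial, no descent of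
relations): if no such `w` existed, `d` of the rows `(χ r δ_{ij} - τ(r)_{ij})_j` would have a
non-zero determinant; this determinant is `χ (det P)` for a matrix `P` over `R`, and
`τ (det P) = 0` by the Cayley–Hamilton trick applied to the row vectors of `ℤ ^ d`.

`h21_eigv_dvr` : over a discrete valuation ring the eigenvector can be chosen primitive.
-/

set_option autoImplicit false
set_option linter.style.haveILetI false
set_option linter.unusedSectionVars false

open Matrix

noncomputable section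

namespace Fermat.Agent.S30x.Eigv.H21

variable {R : Type*} [CommRing R] {d : ℕ}

/-- The matrix over `R` whose `k`-th row is `r_k e_{i_k} - (row i_k of τ (r_k))`. -/
def h21P (τ : R →+* Matrix (Fin d) (Fin d) ℤ) (r : Fin d → R) (ix : Fin d → Fin d) :
    Matrix (Fin d) (Fin d) R :=
  Matrix.of fun k j => (if ix k = j then r k else 0) - ((τ (r k) (ix k) j : ℤ) : R)

theorem h21P_apply (τ : R →+* Matrix (Fin d) (Fin d) ℤ) (r : Fin d → R) (ix : Fin d → Fin d)
    (k j : Fin d) :
    h21P τ r ix k j = (if ix k = j then r k else 0) - ((τ (r k) (ix k) j : ℤ) : R) := rfl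

/-- The rows of `P` kill the row vectors of `ℤ ^ d`: `∑_l e_l τ (P_{kl}) = 0`. -/
theorem h21_row_relation (τ : R →+* Matrix (Fin d) (Fin d) ℤ) (r : Fin d → R)
    (ix : Fin d → Fin d) (k m : Fin d) :
    ∑ l, (τ (h21P τ r ix k l)) l m = 0 := by
  have h1 : ∀ l, (τ (h21P τ r ix k l)) l m =
      (if ix k = l then (τ (r k)) l m else 0) -
        (if l = m then (τ (r k)) (ix k) l else 0) := by
    intro l
    rw [h21P_apply, map_sub, map_intCast, Matrix.sub_apply, apply_ite τ, map_zero]
    have hA : (if ix k = l then τ (r k) else 0) l m =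
        (if ix k = l then (τ (r k)) l m else 0) := by
      by_cases h : ix k = l
      · rw [if_pos h, if_pos h]
      · rw [if_neg h, if_neg h, Matrix.zero_apply]
    have hB : ((((τ (r k)) (ix k) l : ℤ) : Matrix (Fin d) (Fin d) ℤ)) l m =
        (if l = m then (τ (r k)) (ix k) l else 0) := by
      rw [Matrix.intCast_apply]
      by_cases h : l = m
      · rw [if_pos h]
        simp
      · rw [if_neg h]
        simp
    rw [hA, hB]
  simp only [h1]
  rw [Finset.sum_sub_distrib, Finset.sum_ite_eq, Finset.sum_ite_eq']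
  simp

/-- **Cayley–Hamilton trick**: `τ (det P) = 0`. -/
theorem h21_tau_det (τ : R →+* Matrix (Fin d) (Fin d) ℤ) (r : Fin d → R)
    (ix : Fin d → Fin d) : τ (h21P τ r ix).det = 0 := by
  classical
  set P := h21P τ r ix with hP
  have hadj : ∀ j l, ∑ k, (adjugate P) j k * P k l = if j = l then P.det else 0 := by
    intro j l
    have h := congrFun (congrFun (Matrix.adjugate_mul P) j) l
    rw [Matrix.mul_apply, Matrix.smul_apply, Matrix.one_apply, smul_eq_mul] at h
    rw [h]
    split_ifs <;> simp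
  ext j m
  rw [Matrix.zero_apply]
  have h1 : (τ P.det) j m = ∑ l, (τ (if j = l then P.det else 0)) l m := by
    rw [Finset.sum_eq_single j]
    · rw [if_pos rfl]
    · intro l _ hl
      rw [if_neg (Ne.symm hl), map_zero, Matrix.zero_apply]
    · intro h
      exact absurd (Finset.mem_univ j) h
  rw [h1]
  have h2 : ∀ l, (τ (if j = l then P.det else 0)) l m =
      ∑ k, ∑ n, (τ (P k l)) l n * (τ (adjugate P j k)) n m := by
    intro l
    rw [← hadj j l, map_sum, Matrix.sum_apply]
    refine Finset.sum_congr rfl fun k _ => ?_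
    rw [mul_comm (adjugate P j k) (P k l), map_mul, Matrix.mul_apply]
  simp only [h2]
  rw [Finset.sum_comm]
  refine Finset.sum_eq_zero fun k _ => ?_
  rw [Finset.sum_comm]
  refine Finset.sum_eq_zero fun n _ => ?_
  rw [← Finset.sum_mul, h21_row_relation τ r ix k n, zero_mul]

variable {E : Type*} [Field E]

/-- **(B-b)** a character of `R` which kills `ker τ` occurs in `E ^ d`. -/
theorem h21_eigv (τ : R →+* Matrix (Fin d) (Fin d) ℤ) (χ : R →+* E)
    (hker : ∀ r, τ r = 0 → χ r = 0) :
    ∃ w : Fin d → E, w ≠ 0 ∧ ∀ (r : R) (i : Fin d),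
      ∑ j, ((τ r i j : ℤ) : E) * w j = χ r * w i := by
  classical
  by_contra hcon
  let S : Set (Fin d → E) :=
    {ρ | ∃ (r : R) (i : Fin d), ρ = fun j => (if i = j then χ r else 0) - ((τ r i j : ℤ) : E)}
  have hspan : Submodule.span E S = ⊤ := by
    by_contra hne
    obtain ⟨f, hf0, hle⟩ := Submodule.exists_le_ker_of_lt_top _ (lt_top_iff_ne_top.mpr hne)
    apply hcon
    refine ⟨fun j => f (fun j' => if j = j' then 1 else 0), ?_, ?_⟩
    · intro h0
      apply hf0
      refine LinearMap.ext fun x => ?_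
      rw [LinearMap.pi_apply_eq_sum_univ f x]
      simp only [LinearMap.zero_apply]
      refine Finset.sum_eq_zero fun j _ => ?_
      have := congrFun h0 j
      simp only [Pi.zero_apply] at this
      rw [this, smul_zero]
    · intro r i
      have h1 := hle (Submodule.subset_span (⟨r, i, rfl⟩ : (fun j =>
        (if i = j then χ r else 0) - ((τ r i j : ℤ) : E)) ∈ S))
      rw [LinearMap.mem_ker, LinearMap.pi_apply_eq_sum_univ] at h1
      simp only [smul_eq_mul, sub_mul, Finset.sum_sub_distrib, ite_mul, zero_mul,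
        Finset.sum_ite_eq, Finset.mem_univ, if_true] at h1
      exact (sub_eq_zero.mp h1).symm
  obtain ⟨ρ, hρS, hdet⟩ := Fermat.Agent.S42x.Top.H23.h23_exists_det_ne_zero S hspan
  choose r ix hρ using hρS
  apply hdet
  have hmat : Matrix.of ρ = χ.mapMatrix (h21P τ r ix) := by
    ext k j
    have h1 : ρ k j = (if ix k = j then χ (r k) else 0) - ((τ (r k) (ix k) j : ℤ) : E) := by
      rw [hρ k]
    rw [Matrix.of_apply, h1, RingHom.mapMatrix_apply, Matrix.map_apply, h21P_apply, map_sub,
      map_intCast, apply_ite χ, map_zero]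
  rw [hmat, ← RingHom.map_det]
  exact hker _ (h21_tau_det τ r ix)

/-- The transposed form: `∑ i, τ(r)_{ij} w_i = χ(r) w_j`. -/
theorem h21_eigv_transpose (τ : R →+* Matrix (Fin d) (Fin d) ℤ) (χ : R →+* E)
    (hker : ∀ r, τ r = 0 → χ r = 0) :
    ∃ w : Fin d → E, w ≠ 0 ∧ ∀ (r : R) (j : Fin d),
      ∑ i, ((τ r i j : ℤ) : E) * w i = χ r * w j := by
  classical
  -- `r ↦ (τ r)ᵀ` is again a ring homomorphism since `R` is commutative
  let τ' : R →+* Matrix (Fin d) (Fin d) ℤ :=
    { toFun := fun r => (τ r)ᵀ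
      map_one' := by rw [map_one, Matrix.transpose_one]
      map_mul' := fun a b => by
        rw [← Matrix.transpose_mul, ← map_mul, mul_comm b a]
      map_zero' := by rw [map_zero, Matrix.transpose_zero]
      map_add' := fun a b => by rw [map_add, Matrix.transpose_add] }
  have hker' : ∀ r, τ' r = 0 → χ r = 0 := by
    intro r hr
    apply hker
    have : (τ r)ᵀ = 0 := hr
    exact Matrix.transpose_eq_zero.mp this
  obtain ⟨w, hw, h⟩ := h21_eigv τ' χ hker'
  exact ⟨w, hw, fun r j => h r j⟩

section DVR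

variable {O : Type*} [CommRing O] [IsDomain O] [IsDiscreteValuationRing O]

/-- **(B-c)** scaling: a non-zero vector over the fraction field of a discrete valuation ring is
proportional to a primitive vector. -/
theorem h21_exists_primitive {ι : Type*} [Fintype ι] (w : ι → FractionRing O) (hw : w ≠ 0) :
    ∃ (c : FractionRing O) (v : ι → O), c ≠ 0 ∧ (∃ j, IsUnit (v j)) ∧
      ∀ j, algebraMap O (FractionRing O) (v j) = c * w j := by
  classical
  obtain ⟨ϖ, hϖ⟩ := IsDiscreteValuationRing.exists_irreducible O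
  -- clear denominators
  obtain ⟨b, hb⟩ := IsLocalization.exist_integer_multiples_of_finset (nonZeroDivisors O)
    (Finset.univ.image w)
  have hb0 : (b : O) ≠ 0 := nonZeroDivisors.coe_ne_zero b
  have hint : ∀ j, ∃ a : O, algebraMap O (FractionRing O) a = (b : O) • w j := by
    intro j
    obtain ⟨a, ha⟩ := hb (w j) (Finset.mem_image_of_mem w (Finset.mem_univ j))
    exact ⟨a, ha⟩
  choose a ha using hint
  have hinj : Function.Injective (algebraMap O (FractionRing O)) :=
    IsFractionRing.injective O (FractionRing O)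
  have ha0 : ∃ j, a j ≠ 0 := by
    by_contra hcon
    push Not at hcon
    apply hw
    funext j
    have h1 := ha j
    rw [hcon j, map_zero, Algebra.smul_def] at h1
    rcases mul_eq_zero.mp h1.symm with h | h
    · exact absurd ((map_eq_zero_iff _ hinj).mp h) hb0
    · exact h
  -- the minimal valuation
  have hval : ∀ j, a j ≠ 0 → ∃ (n : ℕ) (u : Oˣ), a j = (u : O) * ϖ ^ n := by
    intro j hj
    obtain ⟨n, u, hu⟩ := IsDiscreteValuationRing.eq_unit_mul_pow_irreducible hj hϖ
    exact ⟨n, u, hu⟩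
  -- `n₀` := the least `n` such that some `a j` is a unit times `ϖ ^ n`
  have hex : ∃ n : ℕ, ∃ j, ∃ u : Oˣ, a j = (u : O) * ϖ ^ n := by
    obtain ⟨j, hj⟩ := ha0
    obtain ⟨n, u, hu⟩ := hval j hj
    exact ⟨n, j, u, hu⟩
  let n₀ := Nat.find hex
  obtain ⟨j₀, u₀, hj₀⟩ := Nat.find_spec hex
  have hdiv : ∀ j, ∃ v : O, a j = v * ϖ ^ n₀ := by
    intro j
    by_cases hj : a j = 0
    · exact ⟨0, by rw [hj, zero_mul]⟩
    · obtain ⟨n, u, hu⟩ := hval j hj
      have hle : n₀ ≤ n := Nat.find_min' hex ⟨j, u, hu⟩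
      refine ⟨(u : O) * ϖ ^ (n - n₀), ?_⟩
      rw [hu, mul_assoc, ← pow_add, Nat.sub_add_cancel hle]
  choose v hv using hdiv
  have hϖ0 : ϖ ≠ 0 := hϖ.ne_zero
  have hϖn : algebraMap O (FractionRing O) (ϖ ^ n₀) ≠ 0 := by
    rw [Ne, map_eq_zero_iff _ hinj]
    exact pow_ne_zero _ hϖ0
  have hbF : algebraMap O (FractionRing O) (b : O) ≠ 0 := by
    rw [Ne, map_eq_zero_iff _ hinj]
    exact hb0
  refine ⟨algebraMap O (FractionRing O) (b : O) / algebraMap O (FractionRing O) (ϖ ^ n₀), v,
    div_ne_zero hbF hϖn, ⟨j₀, ?_⟩, ?_⟩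
  · have h1 : v j₀ * ϖ ^ n₀ = (u₀ : O) * ϖ ^ n₀ := by rw [← hv j₀, hj₀]
    have h2 : v j₀ = (u₀ : O) := mul_right_cancel₀ (pow_ne_zero _ hϖ0) h1
    rw [h2]
    exact u₀.isUnit
  · intro j
    have h1 := ha j
    rw [hv j, map_mul, Algebra.smul_def] at h1
    rw [div_mul_eq_mul_div, eq_div_iff hϖn]
    exact h1

/-- **(B) [EIGV]** a character `χ : R →+* O` into a discrete valuation ring which kills `ker τ`
has a *primitive* eigenvector in `O ^ d`. -/
theorem h21_eigv_dvr (τ : R →+* Matrix (Fin d) (Fin d) ℤ) (χ : R →+* O)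
    (hker : ∀ r, τ r = 0 → χ r = 0) :
    ∃ w : Fin d → O, (∃ j, IsUnit (w j)) ∧ ∀ (r : R) (i : Fin d),
      ∑ j, ((τ r i j : ℤ) : O) * w j = χ r * w i := by
  classical
  have hinj : Function.Injective (algebraMap O (FractionRing O)) :=
    IsFractionRing.injective O (FractionRing O)
  have hker' : ∀ r, τ r = 0 → ((algebraMap O (FractionRing O)).comp χ) r = 0 := by
    intro r hr
    rw [RingHom.comp_apply, hker r hr, map_zero]
  obtain ⟨w, hw, h⟩ := h21_eigv τ ((algebraMap O (FractionRing O)).comp χ) hker'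
  obtain ⟨c, v, hc, hv1, hv⟩ := h21_exists_primitive w hw
  refine ⟨v, hv1, fun r i => ?_⟩
  apply hinj
  rw [map_sum, map_mul, hv i]
  have h1 := h r i
  rw [RingHom.comp_apply] at h1
  rw [mul_left_comm, ← h1, Finset.mul_sum]
  refine Finset.sum_congr rfl fun j _ => ?_
  rw [map_mul, map_intCast, hv j]
  ring

/-- The transposed form of `h21_eigv_dvr`. -/
theorem h21_eigv_dvr_transpose (τ : R →+* Matrix (Fin d) (Fin d) ℤ) (χ : R →+* O)
    (hker : ∀ r, τ r = 0 → χ r = 0) :
    ∃ w : Fin d → O, (∃ j, IsUnit (w j)) ∧ ∀ (r : R) (j : Fin d),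
      ∑ i, ((τ r i j : ℤ) : O) * w i = χ r * w j := by
  classical
  have hinj : Function.Injective (algebraMap O (FractionRing O)) :=
    IsFractionRing.injective O (FractionRing O)
  have hker' : ∀ r, τ r = 0 → ((algebraMap O (FractionRing O)).comp χ) r = 0 := by
    intro r hr
    rw [RingHom.comp_apply, hker r hr, map_zero]
  obtain ⟨w, hw, h⟩ := h21_eigv_transpose τ ((algebraMap O (FractionRing O)).comp χ) hker'
  obtain ⟨c, v, hc, hv1, hv⟩ := h21_exists_primitive w hw
  refine ⟨v, hv1, fun r j => ?_⟩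
  apply hinj
  rw [map_sum, map_mul, hv j]
  have h1 := h r j
  rw [RingHom.comp_apply] at h1
  rw [mul_left_comm, ← h1, Finset.mul_sum]
  refine Finset.sum_congr rfl fun i _ => ?_
  rw [map_mul, map_intCast, hv i]
  ring

end DVR

end Fermat.Agent.S30x.Eigv.H21
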